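import Fermat.Agent.H94.ORD.JacInterfaces
import Fermat.Agent.H66.FF.DiscZero

/-!
# P-ORD row 1141 (ORD-GB-C4, C-DISC, helper42): `Fermat.Agent.H94.ORD.DiscZeroC`

Port of `Fermat.Agent.H66.FF.discZero` to one component of a nodal reduction (`CompSetup`): an
element of `V` without poles on the disc of a smooth point `Q` whose reduction has a simple zero
at `Q` has exactly one zero in the disc, and it is simple.

* `discZeroC_of_compHyp` : the statement in terms of `Fermat.Agent.H18.ORD.CompHyp`.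
* `divLiftC` : divisor lifting on the smooth locus (twin of `H66.FF.divLift`).
* `discZeroC : DiscZeroC`.
-/

set_option autoImplicit false
set_option synthInstance.maxHeartbeats 400000
set_option linter.unusedSectionVars false

noncomputable section

open AlgebraicCurve ModularCurve

namespace Fermat.Agent.H42.ORD

open Fermat.Agent.H10.FF Fermat.Agent.H72.FF Fermat.Agent.H18.ORD Fermat.Agent.H94.ORD
  Fermat.Agent.H66.FF

section Comp

variable {L F k Fk X : Type*} [Field L] [Field F] [Algebra L F] [Field k] [Field Fk]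
  [Algebra k Fk]
  {A : ValuationSubring L} {π : A →+* k} {V : Subring F} {red : V →+* Fk}
  {r : Place L F → X} {pt : Place k Fk → X} {smooth : Place k Fk → Prop}

/-- `Q.ord (red u) ≠ 0` forces `red u ≠ 0` -/
theorem dzc_red_ne_zero (Q : Place k Fk) (u : V) (h : Q.ord (red u) ≠ 0) : red u ≠ 0 := by
  intro h0
  rw [h0, Place.ord_zero] at h
  exact h rfl

/-- the divisor of an element of `V` with nonzero reduction, with the conservation law at the
smooth points -/
theorem dzc_exists_div (H : CompHyp A π V red r pt smooth) (u : V) (hu : red u ≠ 0) :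
    ∃ D : Divisor L F, (∀ P, D P = P.ord (u : F)) ∧
      ∀ Q, smooth Q → Finsupp.mapDomain r D (pt Q) = Q.ord (red u) := by
  obtain ⟨D, hD⟩ := H.hdiv _ (nv_coe_ne_zero hu)
  exact ⟨D, hD, fun Q hQ => H.cons u hu D hD Q hQ⟩

/-- **C-DISC**, in terms of `CompHyp`. -/
theorem discZeroC_of_compHyp (H : CompHyp A π V red r pt smooth) (Q : Place k Fk)
    (hsm : smooth Q) (u : V) (hQ : Q.ord (red u) = 1)
    (hnp : ∀ P1, r P1 = pt Q → 0 ≤ P1.ord (u : F)) :
    ∃ P, r P = pt Q ∧ P.ord (u : F) = 1 ∧
      ∀ P1, r P1 = pt Q → P1 ≠ P → P1.ord (u : F) = 0 := by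
  have hu : red u ≠ 0 := dzc_red_ne_zero Q u (by rw [hQ]; exact one_ne_zero)
  obtain ⟨D, hD, hmap⟩ := dzc_exists_div H u hu
  have h1 : Finsupp.mapDomain r D (pt Q) = 1 := by rw [hmap Q hsm, hQ]
  have hnn : ∀ P1, r P1 = pt Q → 0 ≤ D P1 := fun P1 h => by rw [hD]; exact hnp P1 h
  obtain ⟨P, hP, hDP, hoth⟩ := dz_unique_of_mapDomain_one r D (pt Q) hnn h1
  refine ⟨P, hP, by rw [← hD, hDP], ?_⟩
  intro P1 hP1 hne
  rw [← hD]
  exact hoth P1 hP1 hne

/-- **Divisor lifting on the disc of a smooth point.**  If `u ∈ V` has nonzero reduction, has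
no pole on the disc of the smooth point `Q`, and `E` is a divisor with `0 ≤ E ≤ div u` on the
disc of `Q` and `(r_* E)(Q) = ord_Q (red u)`, then `div u = E` on the disc of `Q`. -/
theorem divLiftC (H : CompHyp A π V red r pt smooth) (u : V) (hu : red u ≠ 0)
    (Q : Place k Fk) (hsm : smooth Q) (E : Divisor L F)
    (hE : ∀ P, r P = pt Q → E P ≤ P.ord (u : F))
    (hmap : Finsupp.mapDomain r E (pt Q) = Q.ord (red u)) :
    ∀ P, r P = pt Q → P.ord (u : F) = E P := by
  obtain ⟨D, hD, hcons⟩ := dzc_exists_div H u hu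
  have h1 : Finsupp.mapDomain r (D - E) (pt Q) = 0 := by
    rw [Finsupp.mapDomain_sub, Finsupp.sub_apply, hcons Q hsm, hmap, sub_self]
  have h2 : ∀ P, r P = pt Q → 0 ≤ (D - E) P := by
    intro P hP
    rw [Finsupp.sub_apply, hD]
    have := hE P hP
    omega
  intro P hP
  have h3 := Fermat.Agent.H18.rv_le_mapDomain r (D - E) (pt Q) P hP h2
  rw [h1, Finsupp.sub_apply, hD] at h3
  have h4 := hE P hP
  omega

end Comp

/-- **[C-DISC]** (row 1141). -/
theorem discZeroC : DiscZeroC := by
  intro N p A Fk _ _ X V red r pt smooth hS Q hsm u hQ hnp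
  exact discZeroC_of_compHyp hS.comp Q hsm u hQ hnp

end Fermat.Agent.H42.ORD
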