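import Mathlib
import Fermat.Agent.H72.ORD.Interfaces
import Fermat.Agent.H42.FFUnrTens
import Fermat.Agent.H42.FFUnrClosure
import Fermat.Agent.H42.FFUnrPoly
import Fermat.Agent.H42.FFUnrPlace

/-!
# P-ORD row 1131 (ORD-C2 CONN, helper42): `Fermat.Agent.H72.ORD.ConnOrderOfCoordStatement`

An inertia-only coordinate datum gives a CONNECTED inertia-equivariant Hopf order on every
finite inertia-stable subgroup `Z ≤ J1`.

Construction: `Hu` := the ring generated by the constants of `R = unrInt A` and the coordinate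
functions `P ↦ z P i` (no conjugation, no cosets, no base points).  Integrality, equivariance,
separation and connectedness by closure induction; the comultiplication by `add_approx` and the
Cramer argument `Fermat.Agent.H42.FFC.cramer_tens` with `Γ` := the inertia group.
-/

set_option autoImplicit false
set_option linter.unusedSectionVars false
set_option linter.style.haveILetI false

noncomputable section

namespace Fermat.Agent.H42.ORD

open Fermat.Agent.H10.FF Fermat.Agent.H72.FF Fermat.Agent.H72.ORD Fermat.Agent.H42.FFC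
open scoped BigOperators

/-! ## The maximal ideal of a valuation subring -/

section Nonunits

variable {A : ValuationSubring Qb}

theorem co_nonunits_zero : (0 : Qb) ∈ A.nonunits := by
  rw [ValuationSubring.mem_nonunits_iff, map_zero]
  exact zero_lt_one

theorem co_nonunits_add {x y : Qb} (hx : x ∈ A.nonunits) (hy : y ∈ A.nonunits) :
    x + y ∈ A.nonunits := by
  rw [ValuationSubring.mem_nonunits_iff] at hx hy ⊢
  exact lt_of_le_of_lt (Valuation.map_add _ _ _) (max_lt hx hy)

theorem co_nonunits_neg {x : Qb} (hx : x ∈ A.nonunits) : -x ∈ A.nonunits := by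
  rw [ValuationSubring.mem_nonunits_iff] at hx ⊢
  rwa [Valuation.map_neg]

theorem co_nonunits_sub {x y : Qb} (hx : x ∈ A.nonunits) (hy : y ∈ A.nonunits) :
    x - y ∈ A.nonunits := by
  rw [sub_eq_add_neg]
  exact co_nonunits_add hx (co_nonunits_neg hy)

theorem co_nonunits_mul_left {a x : Qb} (ha : a ∈ A) (hx : x ∈ A.nonunits) :
    a * x ∈ A.nonunits := by
  rw [ValuationSubring.mem_nonunits_iff] at hx ⊢
  rw [map_mul]
  have h1 : A.valuation a ≤ 1 := (A.valuation_le_one_iff a).mpr ha
  exact mul_lt_one_of_nonneg_of_lt_one_right h1 zero_le hx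

theorem co_nonunits_mul_right {a x : Qb} (ha : a ∈ A) (hx : x ∈ A.nonunits) :
    x * a ∈ A.nonunits := by
  rw [mul_comm]
  exact co_nonunits_mul_left ha hx

end Nonunits

/-! ## The order -/

section Order

variable {J : Type} [AddCommGroup J] [DistribMulAction GQ J]
variable (Z : AddSubgroup J) (A : ValuationSubring Qb) {g : ℕ} (z : J → Fin g → Qb)

/-- the coordinate functions on `Z` -/
def coordF (i : Fin g) : Z → Qb := fun P => z (P : J) i

/-- the generators: constants of `R` and coordinate functions -/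
def connGens : Set (Z → Qb) :=
  {h | (∃ c ∈ unrInt A, h = fun _ => c) ∨ (∃ i, h = coordF Z z i)}

/-- the order generated by the constants of `R` and the coordinate functions -/
def connOrder : Subring (Z → Qb) := Subring.closure (connGens Z A z)

variable {Z A z}

theorem connGens_const (c : Qb) (hc : c ∈ unrInt A) : (fun _ : Z => c) ∈ connGens Z A z :=
  Or.inl ⟨c, hc, rfl⟩

theorem connGens_coord (i : Fin g) : coordF Z z i ∈ connGens Z A z :=
  Or.inr ⟨i, rfl⟩

theorem connOrder_const (c : Qb) (hc : c ∈ unrInt A) : (fun _ : Z => c) ∈ connOrder Z A z :=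
  Subring.subset_closure (connGens_const c hc)

theorem connOrder_coord (i : Fin g) : coordF Z z i ∈ connOrder Z A z :=
  Subring.subset_closure (connGens_coord i)

variable {ℓ : ℕ} {J1 : AddSubgroup J}

theorem connOrder_integral (hz : IsCoordDatumI ℓ A J g J1 z) (hZ1 : Z ≤ J1) :
    ∀ h ∈ connOrder Z A z, ∀ P, h P ∈ A := by
  intro h hh
  induction hh using Subring.closure_induction with
  | mem x hx =>
    rcases hx with ⟨c, hc, rfl⟩ | ⟨i, rfl⟩
    · exact fun _ => hc.1
    · exact fun P => (hz.z_mem _ (hZ1 P.2) i).1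
  | zero => exact fun P => A.zero_mem
  | one => exact fun P => A.one_mem
  | add x y _ _ hx hy => exact fun P => A.add_mem _ _ (hx P) (hy P)
  | neg x _ hx => exact fun P => A.neg_mem _ (hx P)
  | mul x y _ _ hx hy => exact fun P => A.mul_mem _ _ (hx P) (hy P)

theorem connOrder_inertia_equiv (hz : IsCoordDatumI ℓ A J g J1 z) (hZ1 : Z ≤ J1)
    (hZ : ∀ σ ∈ A.inertiaSubgroupIn ℚ, ∀ P ∈ Z, σ • P ∈ Z) :
    ∀ h ∈ connOrder Z A z, ∀ σ ∈ A.inertiaSubgroupIn ℚ, ∀ P : Z,
      h (subActI Z σ P) = σ (h P) := by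
  intro h hh
  induction hh using Subring.closure_induction with
  | mem x hx =>
    rcases hx with ⟨c, hc, rfl⟩ | ⟨i, rfl⟩
    · exact fun σ hσ _ => (hc.2 σ hσ).symm
    · intro σ hσ P
      show z ((subActI Z σ P : Z) : J) i = σ (z (P : J) i)
      rw [subActI_coe Z σ P (hZ σ hσ P P.2)]
      exact hz.z_equiv σ hσ _ (hZ1 P.2) i
  | zero => intro σ _ P; simp
  | one => intro σ _ P; simp
  | add x y _ _ hx hy => intro σ hσ P; simp [hx σ hσ P, hy σ hσ P]
  | neg x _ hx => intro σ hσ P; simp [hx σ hσ P]
  | mul x y _ _ hx hy => intro σ hσ P; simp [hx σ hσ P, hy σ hσ P]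

theorem connOrder_separates (hz : IsCoordDatumI ℓ A J g J1 z) (hZ1 : Z ≤ J1) :
    ∀ P P' : Z, P ≠ P' → ∃ h ∈ connOrder Z A z, h P ≠ h P' := by
  intro P P' hne
  have hzne : z (P : J) ≠ z (P' : J) := fun h =>
    hne (Subtype.ext (hz.z_inj _ (hZ1 P.2) _ (hZ1 P'.2) h))
  obtain ⟨i, hi⟩ := Function.ne_iff.mp hzne
  exact ⟨coordF Z z i, connOrder_coord i, hi⟩

theorem connOrder_connected (hz : IsCoordDatumI ℓ A J g J1 z) (hZ1 : Z ≤ J1) :
    ∀ h ∈ connOrder Z A z, ∀ P : Z, h P - h 0 ∈ A.nonunits := by
  have hI := connOrder_integral (Z := Z) hz hZ1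
  intro h hh
  induction hh using Subring.closure_induction with
  | mem x hx =>
    rcases hx with ⟨c, hc, rfl⟩ | ⟨i, rfl⟩
    · intro P
      rw [sub_self]
      exact co_nonunits_zero
    · intro P
      exact co_nonunits_sub (hz.z_mem _ (hZ1 P.2) i).2 (hz.z_mem _ (hZ1 (0 : Z).2) i).2
  | zero =>
    intro P
    simp only [Pi.zero_apply, sub_self]
    exact co_nonunits_zero
  | one =>
    intro P
    simp only [Pi.one_apply, sub_self]
    exact co_nonunits_zero
  | add x y _ _ hx hy =>
    intro P
    have e : (x + y) P - (x + y) 0 = (x P - x 0) + (y P - y 0) := by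
      simp only [Pi.add_apply]
      ring
    rw [e]
    exact co_nonunits_add (hx P) (hy P)
  | neg x _ hx =>
    intro P
    have e : (-x) P - (-x) 0 = -(x P - x 0) := by
      simp only [Pi.neg_apply]
      ring
    rw [e]
    exact co_nonunits_neg (hx P)
  | mul x y hxm hym hx hy =>
    intro P
    have e : (x * y) P - (x * y) 0 = x P * (y P - y 0) + (x P - x 0) * y 0 := by
      simp only [Pi.mul_apply]
      ring
    rw [e]
    exact co_nonunits_add (co_nonunits_mul_left (hI x hxm P) (hy P))
      (co_nonunits_mul_right (hI y hym 0) (hx P))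

/-- the "action" is additive on the inertia group -/
theorem subActI_add (hZ : ∀ σ ∈ A.inertiaSubgroupIn ℚ, ∀ P ∈ Z, σ • P ∈ Z) (σ : GQ)
    (hσ : σ ∈ A.inertiaSubgroupIn ℚ) (P P' : Z) :
    subActI Z σ (P + P') = subActI Z σ P + subActI Z σ P' := by
  apply Subtype.ext
  rw [AddSubgroup.coe_add, subActI_coe Z σ _ (hZ σ hσ _ (P + P').2),
    subActI_coe Z σ _ (hZ σ hσ _ P.2), subActI_coe Z σ _ (hZ σ hσ _ P'.2),
    AddSubgroup.coe_add, smul_add]

/-- the comultiplication of a coordinate function is approximable by sums of pure tensors -/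
theorem coordF_approx [Fact ℓ.Prime] [Finite Z] (hA : A.LiesOverPrime ℓ)
    (hz : IsCoordDatumI ℓ A J g J1 z) (hZ1 : Z ≤ J1) (i : Fin g) (d : Qb) (hd : d ≠ 0) :
    ∃ F ∈ tensSubring (connOrder Z A z), ∀ P P' : Z, ∃ x ∈ A,
      coordF Z z i (P + P') - F (P, P') = d * x := by
  classical
  cases nonempty_fintype Z
  obtain ⟨M, a₀, ha₀, hM⟩ := exists_pow_eq_mul A (Fact.out : ℓ.Prime) hA
    isAlgebraic_int_algebraicClosure hd
  set S : Finset J := Finset.univ.image (fun P : Z => (P : J)) with hS
  have hS1 : ∀ c ∈ S, c ∈ J1 := by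
    intro c hc
    simp only [hS, Finset.mem_image, Finset.mem_univ, true_and] at hc
    obtain ⟨P, rfl⟩ := hc
    exact hZ1 P.2
  have hSa : ∀ P : Z, (P : J) ∈ S := by
    intro P
    simp only [hS, Finset.mem_image, Finset.mem_univ, true_and]
    exact ⟨P, rfl⟩
  obtain ⟨G, hGR, hG⟩ := hz.add_approx S hS1 M
  refine ⟨fun w : Z × Z =>
    MvPolynomial.eval (Sum.elim (z (w.1 : J)) (z (w.2 : J))) (G i), ?_, ?_⟩
  · have := eval_fun_mem (tensSubring (connOrder Z A z)) (unrInt A : Set Qb)
      (fun c hc => tens_left_mem _ (connOrder_const c hc)) (G i) (hGR i)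
      (Sum.elim (fun k (w : Z × Z) => coordF Z z k w.1) (fun k (w : Z × Z) => coordF Z z k w.2))
      (by
        rintro (k | k)
        · exact tens_left_mem _ (connOrder_coord k)
        · exact tens_right_mem _ (connOrder_coord k))
    convert this using 1
    funext w
    congr 2
    funext k
    cases k <;> rfl
  · intro P P'
    obtain ⟨a, ha, h⟩ := hG (P : J) (hSa P) (P' : J) (hSa P') i
    refine ⟨a₀ * a, A.mul_mem _ _ ha₀ ha, ?_⟩
    show z (((P + P' : Z)) : J) i
      - MvPolynomial.eval (Sum.elim (z (P : J)) (z (P' : J))) (G i) = d * (a₀ * a)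
    rw [AddSubgroup.coe_add, h, hM]
    ring

/-- **The order is closed under the comultiplication.** -/
theorem connOrder_comul [Fact ℓ.Prime] [Finite Z] (hA : A.LiesOverPrime ℓ)
    (hz : IsCoordDatumI ℓ A J g J1 z) (hZ1 : Z ≤ J1)
    (hZ : ∀ σ ∈ A.inertiaSubgroupIn ℚ, ∀ P ∈ Z, σ • P ∈ Z) :
    ∀ h ∈ connOrder Z A z, comulF h ∈ tensSubring (connOrder Z A z) := by
  classical
  cases nonempty_fintype Z
  set Hu := connOrder Z A z with hHu
  have hI := connOrder_integral (Z := Z) hz hZ1
  have hE := connOrder_inertia_equiv (Z := Z) hz hZ1 hZ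
  have hS := connOrder_separates (Z := Z) hz hZ1
  have hC : ∀ c ∈ unrInt A, (fun _ : Z => c) ∈ Hu := fun c hc => connOrder_const c hc
  obtain ⟨d, hdA, hd0, hcr⟩ := cramer_tens A.toSubring (unrInt A) Hu
    (Γ := ↥(A.inertiaSubgroupIn ℚ)) (fun τ => ((τ : GQ) : Qb →+* Qb))
    (fun τ => subActI Z (τ : GQ))
    (fun x hx hfix => ⟨hx, fun σ hσ => hfix ⟨σ, hσ⟩⟩) hC hI
    (fun h hh τ P => hE h hh τ.1 τ.2 P) hS
  have hgen : ∀ h ∈ connGens Z A z, comulF h ∈ tensSubring Hu := by
    rintro h (⟨c, hc, rfl⟩ | ⟨i, rfl⟩)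
    · exact tens_left_mem Hu (hC c hc)
    · obtain ⟨F, hF, hFx⟩ := coordF_approx hA hz hZ1 i d hd0
      have hdiff : comulF (coordF Z z i) - F ∈ tensSubring Hu := by
        apply hcr
        · intro τ w
          have h1 := tens_equivariant ((τ : GQ) : Qb →+* Qb) (subActI Z (τ : GQ))
            (fun h' hh' P => hE h' hh' τ.1 τ.2 P) hF w
          simp only [Pi.sub_apply, comulF]
          rw [h1, ← subActI_add hZ τ.1 τ.2, hE _ (connOrder_coord i) τ.1 τ.2]
          simp
        · rintro ⟨P, P'⟩
          exact hFx P P'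
      have := Subring.add_mem _ hdiff hF
      simpa using this
  intro h hh
  induction hh using Subring.closure_induction with
  | mem x hx => exact hgen x hx
  | zero => exact Subring.zero_mem _
  | one => exact Subring.one_mem _
  | add x y _ _ hx hy => exact Subring.add_mem _ hx hy
  | neg x _ hx => exact Subring.neg_mem _ hx
  | mul x y _ _ hx hy => exact Subring.mul_mem _ hx hy

end Order

/-- **(C2) CONN** (row 1131): an inertia-only coordinate datum gives a connected
inertia-equivariant Hopf order on every finite inertia-stable subgroup of `J1`. -/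
theorem connOrderOfCoord : ConnOrderOfCoordStatement := by
  intro ℓ _ A hA J _ _ g J1 z hz Z _ hZ1 hZ
  refine ⟨connOrder Z A z, ?_⟩
  exact
    { const_mem := fun c hc => connOrder_const c hc
      integral := connOrder_integral hz hZ1
      inertia_equiv := connOrder_inertia_equiv hz hZ1 hZ
      separates := connOrder_separates hz hZ1
      comul_mem := fun h hh => exists_fin_of_mem_tensSubring (connOrder_comul hA hz hZ1 hZ h hh)
      connected := connOrder_connected hz hZ1 }

end Fermat.Agent.H42.ORD
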