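/-
P-ORD, block B1-GAUSS / RANGE (helper42): generic lemmas.

`L` a field, `A` a valuation subring, `k` its residue field.

* `gr_qExpand_mem_vGaussRing`, `gr_vGaussRed_qExpand` : the Gauss ring of `L((q))` is stable
  under `q ↦ q^d` and the reduction commutes with it;
* `gr_fullC_mul_prime_eq` : **[B1-1b]** in characteristic `p`,
  `modularFunctionFieldFullC k (M * p) = modularFunctionFieldFullC k M`;
* `gr_qExpand_mem_adjoin_jq` : `q ↦ q^p` maps `k(j̄)` into itself in characteristic `p`;
* `gr_qExpand_sum_eq_zero` : `1, j̄, …, j̄^(p-1)` are independent over the series in `q^p`.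
-/
import Mathlib
import Fermat.Prelude.Def_ModularCurve_X0ModL
import Fermat.Agent.H66.ESD.GaussRing
import Fermat.Agent.H42.SS.QExp2GI

set_option autoImplicit false
set_option linter.unusedSectionVars false
set_option linter.style.haveILetI false

noncomputable section

namespace Fermat.Agent.H42.ORD

open ModularCurve Fermat.Agent.H66

/-! ### The Gauss ring and `q ↦ q^d` -/

section QExpandGauss

variable {L : Type*} [Field L] (A : ValuationSubring L) (d : ℕ) [NeZero d]

theorem gr_vIota_qExpand (a : LaurentSeries ↥A) :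
    vIota A (qExpand ↥A d a) = qExpand L d (vIota A a) := by
  rw [vIota, coeffMap_qExpand]

theorem gr_vRho_qExpand (a : LaurentSeries ↥A) :
    vRho A (qExpand ↥A d a) = qExpand (IsLocalRing.ResidueField ↥A) d (vRho A a) := by
  rw [vRho, coeffMap_qExpand]

theorem gr_qExpand_ne_zero {R : Type*} [CommRing R] {x : LaurentSeries R} (hx : x ≠ 0) :
    qExpand R d x ≠ 0 := fun h =>
  hx (qExpand_injective (R := R) d (h.trans (map_zero _).symm))

/-- The Gauss ring is stable under `q ↦ q^d`. -/
theorem gr_qExpand_mem_vGaussRing {x : LaurentSeries L} (hx : x ∈ vGaussRing A) :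
    qExpand L d x ∈ vGaussRing A := by
  obtain ⟨a, b, hb, hab⟩ := hx
  refine ⟨qExpand ↥A d a, qExpand ↥A d b, ?_, ?_⟩
  · rw [gr_vRho_qExpand]
    exact gr_qExpand_ne_zero d hb
  · rw [gr_vIota_qExpand, gr_vIota_qExpand, ← map_mul, hab]

/-- The reduction commutes with `q ↦ q^d`. -/
theorem gr_vGaussRed_qExpand (x : vGaussRing A) :
    vGaussRed A ⟨qExpand L d (x : LaurentSeries L), gr_qExpand_mem_vGaussRing A d x.2⟩ =
      qExpand (IsLocalRing.ResidueField ↥A) d (vGaussRed A x) := by
  obtain ⟨a, b, hb, hab⟩ := x.2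
  have hb' : vRho A (qExpand ↥A d b) ≠ 0 := by
    rw [gr_vRho_qExpand]
    exact gr_qExpand_ne_zero d hb
  have hab' : qExpand L d (x : LaurentSeries L) * vIota A (qExpand ↥A d b) =
      vIota A (qExpand ↥A d a) := by
    rw [gr_vIota_qExpand, gr_vIota_qExpand, ← map_mul, hab]
  rw [vGaussRed_eq A ⟨_, gr_qExpand_mem_vGaussRing A d x.2⟩ _ _ hb' hab',
    vGaussRed_eq A x a b hb hab, gr_vRho_qExpand, gr_vRho_qExpand, map_div₀]

end QExpandGauss

/-! ### Characteristic `p` -/

section CharP

variable (p : ℕ) [hp : Fact p.Prime] [NeZero p] (k : Type) [Field k] [CharP k p]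

/-- `j(q^(d p)) = j(q^d)^p` in characteristic `p`. -/
theorem gr_qExpand_mul_prime (d : ℕ) [NeZero d] [NeZero (d * p)] :
    qExpand k (d * p) (jqModC k) = qExpand k d (jqModC k) ^ p := by
  rw [← map_pow, ← Fermat.Agent.H42.SS.qExpand_jqModC_eq_pow p k, qExpand_qExpand]

/-- **[B1-1b]** In characteristic `p` the field generated by the `j(q^d)`, `d ∣ M p`, is the
field generated by the `j(q^d)`, `d ∣ M`. -/
theorem gr_fullC_mul_prime_eq (M : ℕ) [NeZero M] [NeZero (M * p)] :
    modularFunctionFieldFullC k (M * p) = modularFunctionFieldFullC k M := by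
  apply le_antisymm
  · rw [modularFunctionFieldFullC, IntermediateField.adjoin_le_iff]
    rintro x ⟨d, hd, hdvd, rfl⟩
    haveI := hd
    by_cases hpd : p ∣ d
    · obtain ⟨e, rfl⟩ := hpd
      have he0 : e ≠ 0 := by
        rintro rfl
        exact (NeZero.ne (p * 0)) (mul_zero p)
      haveI : NeZero e := ⟨he0⟩
      haveI : NeZero (e * p) := ⟨Nat.mul_ne_zero he0 hp.out.ne_zero⟩
      have heM : e ∣ M := by
        have h1 : p * e ∣ p * M := by rwa [mul_comm p M]
        exact (Nat.mul_dvd_mul_iff_left hp.out.pos).mp h1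
      have h2 : qExpand k (p * e) (jqModC k) = qExpand k e (jqModC k) ^ p := by
        rw [← gr_qExpand_mul_prime p k e]
        exact qExpand_congr (mul_comm p e) _
      show qExpand k (p * e) (jqModC k) ∈ modularFunctionFieldFullC k M
      rw [h2]
      exact pow_mem (jqModCd_mem_full k M heM) p
    · have hcop : Nat.Coprime d p := by
        rw [Nat.coprime_comm, hp.out.coprime_iff_not_dvd]
        exact hpd
      exact jqModCd_mem_full k M (hcop.dvd_of_dvd_mul_right hdvd)
  · exact full_degeneracyC_le k (Dvd.intro p rfl)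

/-- `q ↦ q^p` maps `k(j̄)` into itself in characteristic `p`. -/
theorem gr_qExpand_mem_adjoin_jq {x : LaurentSeries k}
    (hx : x ∈ IntermediateField.adjoin k {jqModC k}) :
    qExpand k p x ∈ IntermediateField.adjoin k {jqModC k} := by
  induction hx using IntermediateField.adjoin_induction with
  | mem y hy =>
    rw [Set.mem_singleton_iff] at hy
    rw [hy, Fermat.Agent.H42.SS.qExpand_jqModC_eq_pow p k]
    exact pow_mem (IntermediateField.mem_adjoin_simple_self k _) p
  | algebraMap c =>
    have h : qExpand k p (algebraMap k (LaurentSeries k) c) =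
        algebraMap k (LaurentSeries k) c := (qExpandAlgHomC k p).commutes c
    rw [h]
    exact IntermediateField.algebraMap_mem _ c
  | add y z _ _ hy hz => rw [map_add]; exact add_mem hy hz
  | inv y _ hy => rw [map_inv₀]; exact inv_mem hy
  | mul y z _ _ hy hz => rw [map_mul]; exact mul_mem hy hz

end CharP

/-! ### Independence of `1, j̄, …, j̄^(p-1)` over the series in `q^p` -/

section Orders

variable (k : Type*) [Field k] (d : ℕ) [NeZero d]

theorem gr_order_qExpand {x : LaurentSeries k} (hx : x ≠ 0) :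
    (qExpand k d x).order = (d : ℤ) * x.order := by
  have hx' : qExpand k d x ≠ 0 := gr_qExpand_ne_zero d hx
  have hd : (0 : ℤ) < d := by exact_mod_cast Nat.pos_of_ne_zero (NeZero.ne d)
  apply le_antisymm
  · apply HahnSeries.order_le_of_coeff_ne_zero
    rw [qExpand_coeff_mul]
    exact fun h0 => hx (HahnSeries.coeff_order_eq_zero.mp h0)
  · by_contra hlt
    rw [not_le] at hlt
    apply hx'
    apply HahnSeries.coeff_order_eq_zero.mp
    by_cases hdvd : (d : ℤ) ∣ (qExpand k d x).order
    · obtain ⟨m, hm⟩ := hdvd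
      rw [hm, qExpand_coeff_mul]
      apply HahnSeries.coeff_eq_zero_of_lt_order
      rw [hm] at hlt
      exact lt_of_mul_lt_mul_left hlt hd.le
    · exact qExpand_coeff_of_not_dvd d x hdvd

/-- `1, j̄, …, j̄^(d-1)` are independent over the series in `q^d`. -/
theorem gr_qExpand_sum_eq_zero (c : Fin d → LaurentSeries k)
    (h : ∑ a, qExpand k d (c a) * jqModC k ^ (a : ℕ) = 0) : ∀ a, c a = 0 := by
  classical
  by_contra hcon
  push Not at hcon
  obtain ⟨a₁, ha₁⟩ := hcon
  have hj0 : jqModC k ≠ 0 := jqModC_ne_zero_of_nontrivial k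
  have hjord : (jqModC k).order = -1 :=
    P2MW.S_ModularCurve_coeff_jqModC_neg_one.ModularCurve.CharLRows.order_jqModC k
  set t : Fin d → LaurentSeries k := fun a => qExpand k d (c a) * jqModC k ^ (a : ℕ) with ht
  have ht0 : ∀ a, c a ≠ 0 → t a ≠ 0 := fun a ha =>
    mul_ne_zero (gr_qExpand_ne_zero d ha) (pow_ne_zero _ hj0)
  have hord : ∀ a, c a ≠ 0 → (t a).order = (d : ℤ) * (c a).order - (a : ℕ) := by
    intro a ha
    rw [ht]
    simp only
    rw [HahnSeries.order_mul (gr_qExpand_ne_zero d ha) (pow_ne_zero _ hj0),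
      gr_order_qExpand k d ha, HahnSeries.order_pow, hjord]
    simp
    ring
  obtain ⟨a₀, ha₀S, hmin⟩ := Finset.exists_min_image
    (Finset.univ.filter fun a => c a ≠ 0) (fun a => (t a).order)
    ⟨a₁, Finset.mem_filter.mpr ⟨Finset.mem_univ _, ha₁⟩⟩
  have hc0 : c a₀ ≠ 0 := (Finset.mem_filter.mp ha₀S).2
  have key : (∑ a, t a).coeff (t a₀).order = (t a₀).coeff (t a₀).order := by
    rw [HahnSeries.coeff_sum]
    apply Finset.sum_eq_single a₀
    · intro a _ hne
      by_cases hca : c a = 0
      · rw [ht]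
        simp only
        rw [hca, map_zero, zero_mul, HahnSeries.coeff_zero]
      · apply HahnSeries.coeff_eq_zero_of_lt_order
        refine lt_of_le_of_ne (hmin a (Finset.mem_filter.mpr ⟨Finset.mem_univ _, hca⟩)) ?_
        intro heq
        rw [hord a hca, hord a₀ hc0] at heq
        apply hne
        have hdvd : (d : ℤ) ∣ ((a : ℕ) : ℤ) - ((a₀ : ℕ) : ℤ) :=
          ⟨(c a).order - (c a₀).order, by linarith⟩
        have habs : |((a : ℕ) : ℤ) - ((a₀ : ℕ) : ℤ)| < (d : ℤ) := by
          have h1 : ((a : ℕ) : ℤ) < d := by exact_mod_cast a.2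
          have h2 : ((a₀ : ℕ) : ℤ) < d := by exact_mod_cast a₀.2
          have h3 : (0 : ℤ) ≤ ((a : ℕ) : ℤ) := Int.natCast_nonneg _
          have h4 : (0 : ℤ) ≤ ((a₀ : ℕ) : ℤ) := Int.natCast_nonneg _
          rw [abs_lt]
          constructor <;> linarith
        have h0 := Int.eq_zero_of_abs_lt_dvd hdvd habs
        apply Fin.ext
        have : ((a : ℕ) : ℤ) = ((a₀ : ℕ) : ℤ) := by linarith
        exact_mod_cast this
    · intro h0
      exact absurd (Finset.mem_univ _) h0
  rw [h, HahnSeries.coeff_zero] at key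
  exact ht0 a₀ hc0 (HahnSeries.coeff_order_eq_zero.mp key.symm)

end Orders

end Fermat.Agent.H42.ORD
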