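/-
P-ORD, block B1-GAUSS / RANGE (helper42): the two-sided fundamental inequality, abstract form.

`L` a field, `A` a valuation subring, `k` its residue field.  A family `v s` of elements of the
Gauss ring of `L((q))` together with a second family `v' s` (in the application `v' = W ∘ v`,
`W` the Atkin-Lehner involution, which acts on `L(j)` as `q ↦ q^p`).

* `gr_two_sided` : if the pairs of reductions `(red (v s), red (v' s))` are independent over
  `k(j̄)` (acting through `c` on the first and through `c(q^p)` on the second component), then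
  there is no nontrivial relation `∑ g s * v s = 0 = ∑ g s (q^p) * v' s` with `g s ∈ L(j)`.
* `gr_pair_independent` : the independence of the pairs for a family of the shape
  `(r i, 0)`, `(0, j̄^a r i)` (`a < p`) with `r` independent over `k(j̄)`, in characteristic `p`.
-/
import Mathlib
import Fermat.Agent.H66.ESD.GaussFundIneq
import Fermat.Agent.H42.ORD.GaussRangeCore

set_option autoImplicit false
set_option linter.unusedSectionVars false
set_option linter.style.haveILetI false

noncomputable section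

namespace Fermat.Agent.H42.ORD

open ModularCurve Fermat.Agent.H66

section TwoSided

variable {L : Type*} [Field L] (A : ValuationSubring L) (p : ℕ) [NeZero p]

theorem gr_qExpand_algebraMap {R : Type*} [Field R] (c : R) :
    qExpand R p (algebraMap R (LaurentSeries R) c) = algebraMap R (LaurentSeries R) c :=
  (qExpandAlgHomC R p).commutes c

/-- **The two-sided fundamental inequality**, abstract form. -/
theorem gr_two_sided {S : Type*} [Fintype S] (v v' : S → vGaussRing A)
    (hGI : ∀ c : S → LaurentSeries (IsLocalRing.ResidueField ↥A),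
      (∀ s, c s ∈ IntermediateField.adjoin (IsLocalRing.ResidueField ↥A)
        {jqModC (IsLocalRing.ResidueField ↥A)}) →
      ∑ s, c s * vGaussRed A (v s) = 0 →
      ∑ s, qExpand (IsLocalRing.ResidueField ↥A) p (c s) * vGaussRed A (v' s) = 0 →
      ∀ s, c s = 0)
    (g : S → LaurentSeries L) (hg : ∀ s, g s ∈ IntermediateField.adjoin L {jqModC L})
    (h1 : ∑ s, g s * ((v s : vGaussRing A) : LaurentSeries L) = 0)
    (h2 : ∑ s, qExpand L p (g s) * ((v' s : vGaussRing A) : LaurentSeries L) = 0) :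
    ∀ s, g s = 0 := by
  classical
  by_contra hcon
  push Not at hcon
  obtain ⟨s₁, hs₁⟩ := hcon
  have hex : ∀ s, g s ≠ 0 → ∃ (c : L) (w : vGaussRing A), c ≠ 0 ∧
      g s = algebraMap L (LaurentSeries L) c * (w : LaurentSeries L) ∧
      vGaussRed A w ≠ 0 ∧
      vGaussRed A w ∈ IntermediateField.adjoin (IsLocalRing.ResidueField ↥A)
        {jqModC (IsLocalRing.ResidueField ↥A)} := fun s hs =>
    exists_unit_levelOne A (hg s) hs
  choose! c w hc hgw hw hwk using hex
  set T : Finset S := Finset.univ.filter fun s => g s ≠ 0 with hT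
  have hmemT : ∀ s, s ∈ T ↔ g s ≠ 0 := fun s => by
    rw [hT, Finset.mem_filter]
    exact ⟨fun h => h.2, fun h => ⟨Finset.mem_univ s, h⟩⟩
  obtain ⟨s₀, hs₀T, hcs₀, hdiv⟩ := exists_min_val A T c
    ⟨s₁, (hmemT s₁).mpr hs₁, hc s₁ hs₁⟩
  let d : S → vGaussRing A := fun s =>
    if hs : s ∈ T then
      ⟨algebraMap L (LaurentSeries L) ((c s₀)⁻¹ * c s),
        algebraMap_mem_vGaussRing A (hdiv s hs)⟩ * w s
    else 0
  have hd_val : ∀ s, ((d s : vGaussRing A) : LaurentSeries L) =
      (algebraMap L (LaurentSeries L) (c s₀))⁻¹ * g s := by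
    intro s
    by_cases hs : s ∈ T
    · have : d s = ⟨algebraMap L (LaurentSeries L) ((c s₀)⁻¹ * c s),
        algebraMap_mem_vGaussRing A (hdiv s hs)⟩ * w s := dif_pos hs
      rw [this, hgw s ((hmemT s).mp hs)]
      show algebraMap L (LaurentSeries L) ((c s₀)⁻¹ * c s) * ((w s : vGaussRing A) :
        LaurentSeries L) = _
      rw [map_mul, map_inv₀, mul_assoc]
    · have h1 : d s = 0 := dif_neg hs
      have h2 : g s = 0 := by
        by_contra h3
        exact hs ((hmemT s).mpr h3)
      rw [h1, h2]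
      simp
  -- the first relation in the Gauss ring
  have hrel1 : ∑ s, d s * v s = 0 := by
    apply Subtype.ext
    push_cast
    have h3 : ∀ s, ((d s : vGaussRing A) : LaurentSeries L) * ((v s : vGaussRing A) :
        LaurentSeries L) = (algebraMap L (LaurentSeries L) (c s₀))⁻¹ *
          (g s * ((v s : vGaussRing A) : LaurentSeries L)) := by
      intro s
      rw [hd_val s, mul_assoc]
    simp only [h3]
    rw [← Finset.mul_sum, h1, mul_zero]
  have hrel1' := congrArg (vGaussRed A) hrel1
  rw [map_sum, map_zero] at hrel1'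
  simp only [map_mul] at hrel1'
  -- the second relation in the Gauss ring
  have hrel2 : ∑ s, (⟨qExpand L p ((d s : vGaussRing A) : LaurentSeries L),
      gr_qExpand_mem_vGaussRing A p (d s).2⟩ : vGaussRing A) * v' s = 0 := by
    apply Subtype.ext
    push_cast
    have h3 : ∀ s, qExpand L p ((d s : vGaussRing A) : LaurentSeries L) *
        ((v' s : vGaussRing A) : LaurentSeries L) =
        (algebraMap L (LaurentSeries L) (c s₀))⁻¹ *
          (qExpand L p (g s) * ((v' s : vGaussRing A) : LaurentSeries L)) := by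
      intro s
      rw [hd_val s, map_mul, map_inv₀, gr_qExpand_algebraMap, mul_assoc]
    simp only [h3]
    rw [← Finset.mul_sum, h2, mul_zero]
  have hrel2' := congrArg (vGaussRed A) hrel2
  rw [map_sum, map_zero] at hrel2'
  simp only [map_mul, gr_vGaussRed_qExpand] at hrel2'
  -- the reduced coefficients lie in `k(j̄)`
  have hdk : ∀ s, vGaussRed A (d s) ∈ IntermediateField.adjoin (IsLocalRing.ResidueField ↥A)
      {jqModC (IsLocalRing.ResidueField ↥A)} := by
    intro s
    by_cases hs : s ∈ T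
    · have : d s = ⟨algebraMap L (LaurentSeries L) ((c s₀)⁻¹ * c s),
        algebraMap_mem_vGaussRing A (hdiv s hs)⟩ * w s := dif_pos hs
      rw [this, map_mul, vGaussRed_algebraMap A (hdiv s hs)]
      exact mul_mem (IntermediateField.algebraMap_mem _ _) (hwk s ((hmemT s).mp hs))
    · have h1 : d s = 0 := dif_neg hs
      rw [h1, map_zero]
      exact zero_mem _
  have h0 := hGI (fun s => vGaussRed A (d s)) hdk hrel1' hrel2' s₀
  have h3 : d s₀ = ⟨algebraMap L (LaurentSeries L) ((c s₀)⁻¹ * c s₀),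
        algebraMap_mem_vGaussRing A (hdiv s₀ hs₀T)⟩ * w s₀ := dif_pos hs₀T
  rw [h3, map_mul, vGaussRed_algebraMap A (hdiv s₀ hs₀T)] at h0
  rcases mul_eq_zero.mp h0 with h4 | h4
  · rw [map_eq_zero, IsLocalRing.residue_eq_zero_iff] at h4
    have h5 : (⟨(c s₀)⁻¹ * c s₀, hdiv s₀ hs₀T⟩ : ↥A) = 1 :=
      Subtype.ext (inv_mul_cancel₀ hcs₀)
    rw [h5] at h4
    exact (Ideal.ne_top_iff_one _).mp (IsLocalRing.maximalIdeal.isMaximal ↥A).ne_top h4
  · exact hw s₀ ((hmemT s₀).mp hs₀T) h4

end TwoSided

/-! ### Independence of the pairs -/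

section Pairs

variable (p : ℕ) [hp : Fact p.Prime] [NeZero p] (k : Type) [Field k] [CharP k p]

/-- Independence of the pairs `(r i, 0)`, `(0, j̄^a r i)`. -/
theorem gr_pair_independent {ι : Type*} [Fintype ι] (r : ι → LaurentSeries k)
    (hr : LinearIndependent ↥(IntermediateField.adjoin k {jqModC k}) r)
    (ρ ρ' : ι ⊕ (Fin p × ι) → LaurentSeries k)
    (hρ1 : ∀ i, ρ (Sum.inl i) = r i) (hρ2 : ∀ b, ρ (Sum.inr b) = 0)
    (hρ1' : ∀ i, ρ' (Sum.inl i) = 0)
    (hρ2' : ∀ a i, ρ' (Sum.inr (a, i)) = jqModC k ^ (a : ℕ) * r i)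
    (c : ι ⊕ (Fin p × ι) → LaurentSeries k)
    (hc : ∀ s, c s ∈ IntermediateField.adjoin k {jqModC k})
    (h1 : ∑ s, c s * ρ s = 0) (h2 : ∑ s, qExpand k p (c s) * ρ' s = 0) :
    ∀ s, c s = 0 := by
  classical
  rw [Fintype.linearIndependent_iff] at hr
  -- the first equation
  have e1 : ∑ i, c (Sum.inl i) * r i = 0 := by
    rw [Fintype.sum_sum_type] at h1
    have hz : ∑ b : Fin p × ι, c (Sum.inr b) * ρ (Sum.inr b) = 0 :=
      Finset.sum_eq_zero fun b _ => by rw [hρ2, mul_zero]
    rw [hz, add_zero] at h1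
    rw [← h1]
    exact Finset.sum_congr rfl fun i _ => by rw [hρ1]
  have r1 : ∀ i, c (Sum.inl i) = 0 := fun i =>
    congrArg Subtype.val (hr (fun i => ⟨c (Sum.inl i), hc _⟩) e1 i)
  -- the second equation
  have hmem : ∀ i, ∑ a : Fin p, qExpand k p (c (Sum.inr (a, i))) * jqModC k ^ (a : ℕ) ∈
      IntermediateField.adjoin k {jqModC k} := fun i =>
    sum_mem fun a _ => mul_mem (gr_qExpand_mem_adjoin_jq p k (hc _))
      (pow_mem (IntermediateField.mem_adjoin_simple_self k _) _)
  have e2 : ∑ i, (∑ a : Fin p, qExpand k p (c (Sum.inr (a, i))) * jqModC k ^ (a : ℕ)) * r i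
      = 0 := by
    rw [Fintype.sum_sum_type] at h2
    have hz : ∑ i : ι, qExpand k p (c (Sum.inl i)) * ρ' (Sum.inl i) = 0 :=
      Finset.sum_eq_zero fun i _ => by rw [hρ1', mul_zero]
    rw [hz, zero_add, Fintype.sum_prod_type, Finset.sum_comm] at h2
    rw [← h2]
    refine Finset.sum_congr rfl fun i _ => ?_
    rw [Finset.sum_mul]
    refine Finset.sum_congr rfl fun a _ => ?_
    rw [hρ2', mul_assoc]
  have r2 : ∀ i, ∑ a : Fin p, qExpand k p (c (Sum.inr (a, i))) * jqModC k ^ (a : ℕ) = 0 :=
    fun i => congrArg Subtype.val (hr (fun i => ⟨_, hmem i⟩) e2 i)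
  rintro (i | ⟨a, i⟩)
  · exact r1 i
  · exact gr_qExpand_sum_eq_zero k p (fun a => c (Sum.inr (a, i))) (r2 i) a

end Pairs

end Fermat.Agent.H42.ORD
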