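/-
P-ORD, block B1-GAUSS / RANGE (helper42): the `q`-expansion principle at BAD reduction.

`N = M p`, `p` prime, `p ∤ M`; `L = ℚ̄`, `A` a valuation subring over `p`, `k` its residue field,
`F = ℚ̄(X₀(N))`, `O = gaussOBar N A` the Gauss ring at the cusp `∞`, `red = gaussRedBar N A`.
`W` is an Atkin-Lehner automorphism of `F` (`W j = j_p`, `W j_p = j`, `j_p = j(q^p)`).

* `gr_card_le` : **the two-valuation fundamental inequality**
  `(p + 1) [red O : k(j̄)] ≤ ψ(N)`: a family of `n` elements of `O` whose reductions are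
  independent over `k(j̄)` gives `(p + 1) n ≤ ψ(N)`.
* `gaussRange_bad_of_W` : **RANGE at `p ∣ N`** : `red u ∈ modularFunctionFieldFullC k (M p)`
  for every `u ∈ O`.

The valuation ring `V_0 = W⁻¹ O` has residue degree `p [red O : k(j̄)]` over the Gauss valuation
of `L(j)`, because `W j = j_p` reduces to `j̄^p`; the separators are `X = j_p - j^p` (in the
maximal ideal of `O`, a unit of `V_0`) and `Y = j - j_p^p`.
-/
import Mathlib
import Fermat.Agent.H66.ESD.GaussQEP
import Fermat.Agent.H57.FF.Cramer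
import Fermat.Agent.H26.DedekindPsi
import Fermat.Agent.H42.ORD.GaussRangeAbs

set_option autoImplicit false
set_option synthInstance.maxHeartbeats 400000
set_option linter.unusedSectionVars false
set_option linter.style.haveILetI false

noncomputable section

namespace Fermat.Agent.H42.ORD

open ModularCurve Fermat.Agent.H66 IntermediateField

/-! ### `p` divides `j_p - j^p` -/

section Divisibility

variable (p : ℕ) [hp : Fact p.Prime] [NeZero p]

theorem gr_prime_dvd_coeff_uS (m : ℤ) : (p : ℤ) ∣ (Fermat.Agent.H42.SS.uS ℤ p).coeff m := by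
  have h1 : coeffMap (Int.castRingHom (ZMod p)) (Fermat.Agent.H42.SS.uS ℤ p) = 0 := by
    rw [Fermat.Agent.H42.SS.coeffMap_uS, Fermat.Agent.H42.SS.uS_eq_zero]
  have h2 := congrArg (fun x : LaurentSeries (ZMod p) => x.coeff m) h1
  simp only [coeffMap_coeff, HahnSeries.coeff_zero] at h2
  exact (ZMod.intCast_zmod_eq_zero_iff_dvd _ p).mp h2

variable (A : ValuationSubring (AlgebraicClosure ℚ))

/-- `j_p - j^p = p · ι x'` with `x' ∈ A((q))`. -/
theorem gr_exists_uS_eq : ∃ x' : LaurentSeries ↥A,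
    Fermat.Agent.H42.SS.uS (AlgebraicClosure ℚ) p =
      algebraMap (AlgebraicClosure ℚ) (LaurentSeries (AlgebraicClosure ℚ))
        ((p : ℕ) : AlgebraicClosure ℚ) * vIota A x' := by
  have hp0 : ((p : ℕ) : AlgebraicClosure ℚ) ≠ 0 := Nat.cast_ne_zero.mpr hp.out.ne_zero
  have hP0 : algebraMap (AlgebraicClosure ℚ) (LaurentSeries (AlgebraicClosure ℚ))
      ((p : ℕ) : AlgebraicClosure ℚ) ≠ 0 := by
    rw [Ne, map_eq_zero]
    exact hp0
  have hmem : (algebraMap (AlgebraicClosure ℚ) (LaurentSeries (AlgebraicClosure ℚ))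
      ((p : ℕ) : AlgebraicClosure ℚ))⁻¹ * Fermat.Agent.H42.SS.uS (AlgebraicClosure ℚ) p ∈
        Set.range (vIota A) := by
    rw [mem_range_vIota_iff]
    intro m
    rw [← map_inv₀, coeff_algebraMap_mul]
    obtain ⟨z, hz⟩ := gr_prime_dvd_coeff_uS p m
    have h1 : (Fermat.Agent.H42.SS.uS (AlgebraicClosure ℚ) p).coeff m =
        (((Fermat.Agent.H42.SS.uS ℤ p).coeff m : ℤ) : AlgebraicClosure ℚ) := by
      rw [← Fermat.Agent.H42.SS.coeffMap_uS p (Int.castRingHom (AlgebraicClosure ℚ)),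
        coeffMap_coeff]
      rfl
    rw [h1, hz]
    push_cast
    rw [← mul_assoc, inv_mul_cancel₀ hp0, one_mul]
    exact intCast_mem A z
  obtain ⟨x', hx'⟩ := hmem
  refine ⟨x', ?_⟩
  rw [hx', ← mul_assoc, mul_inv_cancel₀ hP0, one_mul]

end Divisibility

/-! ### Absorption by powers of `X = j_p - j^p` -/

section Absorb

variable (p : ℕ) [hp : Fact p.Prime] [NeZero p]
  (A : ValuationSubring (AlgebraicClosure ℚ)) (hA : A.LiesOverPrime p)

theorem gr_red_congr {a b : LaurentSeries (AlgebraicClosure ℚ)} (ha : a ∈ vGaussRing A)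
    (hb : b ∈ vGaussRing A) (h : a = b) : vGaussRed A ⟨a, ha⟩ = vGaussRed A ⟨b, hb⟩ := by
  subst h
  rfl

include hA in
theorem gr_residue_prime (h : ((p : ℕ) : AlgebraicClosure ℚ) ∈ A) :
    IsLocalRing.residue ↥A ⟨((p : ℕ) : AlgebraicClosure ℚ), h⟩ = 0 := by
  haveI : CharP (IsLocalRing.ResidueField ↥A) p :=
    Fermat.Agent.H89.charP_residueField_of_liesOverPrime A p hA
  have h1 : (⟨((p : ℕ) : AlgebraicClosure ℚ), h⟩ : ↥A) = ((p : ℕ) : ↥A) :=
    Subtype.ext (by push_cast; rfl)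
  rw [h1, map_natCast]
  exact CharP.cast_eq_zero _ p

include hA in
/-- Every constant multiple of an element of the Gauss ring is absorbed by a power of `X`. -/
theorem gr_absorb (f : LaurentSeries (AlgebraicClosure ℚ))
    (hf : ∃ (c : AlgebraicClosure ℚ) (w : vGaussRing A),
      f = algebraMap (AlgebraicClosure ℚ) (LaurentSeries (AlgebraicClosure ℚ)) c *
        (w : LaurentSeries (AlgebraicClosure ℚ))) :
    ∃ n₀ : ℕ, ∀ n, n₀ ≤ n →
      ∃ h : f * Fermat.Agent.H42.SS.uS (AlgebraicClosure ℚ) p ^ n ∈ vGaussRing A,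
        vGaussRed A ⟨_, h⟩ = 0 := by
  obtain ⟨c, w, hfw⟩ := hf
  obtain ⟨x', hx'⟩ := gr_exists_uS_eq p A
  obtain ⟨M₀, hM₀⟩ := Fermat.Agent.H57.FF.exists_pow_mul_mem hp.out A hA c
  have hpA : ((p : ℕ) : AlgebraicClosure ℚ) ∈ A :=
    Fermat.Agent.H57.FF.natCast_mem_of_liesOver A hA
  refine ⟨M₀ + 1, fun n hn => ?_⟩
  obtain ⟨n', rfl⟩ : ∃ n', n = n' + 1 := ⟨n - 1, by omega⟩
  have hn' : M₀ ≤ n' := by omega
  have hcA := hM₀ n' hn'
  set e : vGaussRing A :=
    ⟨algebraMap (AlgebraicClosure ℚ) (LaurentSeries (AlgebraicClosure ℚ))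
        ((p : ℕ) : AlgebraicClosure ℚ), algebraMap_mem_vGaussRing A hpA⟩ *
      (⟨algebraMap (AlgebraicClosure ℚ) (LaurentSeries (AlgebraicClosure ℚ))
        (((p : ℕ) : AlgebraicClosure ℚ) ^ n' * c), algebraMap_mem_vGaussRing A hcA⟩ *
        (w * ⟨vIota A x', vIota_mem_vGaussRing A x'⟩ ^ (n' + 1))) with he
  have hval : f * Fermat.Agent.H42.SS.uS (AlgebraicClosure ℚ) p ^ (n' + 1) =
      ((e : vGaussRing A) : LaurentSeries (AlgebraicClosure ℚ)) := by
    rw [he]
    simp only [Subring.coe_mul, Subring.coe_pow]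
    rw [hfw, hx', mul_pow, map_mul, map_pow, pow_succ
      (algebraMap (AlgebraicClosure ℚ) (LaurentSeries (AlgebraicClosure ℚ))
        ((p : ℕ) : AlgebraicClosure ℚ)) n']
    ring
  have hmem : f * Fermat.Agent.H42.SS.uS (AlgebraicClosure ℚ) p ^ (n' + 1) ∈ vGaussRing A := by
    rw [hval]
    exact e.2
  refine ⟨hmem, ?_⟩
  have h1 : (⟨_, hmem⟩ : vGaussRing A) = e := Subtype.ext hval
  rw [h1, he, map_mul, vGaussRed_algebraMap A hpA, gr_residue_prime p A hA hpA, map_zero,
    zero_mul]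

end Absorb

/-! ### The function field `F = ℚ̄(X₀(M p))` -/

section Concrete

variable (M p : ℕ) [NeZero M] [hp : Fact p.Prime] [NeZero p] [NeZero (M * p)]
  (A : ValuationSubring (AlgebraicClosure ℚ)) (hA : A.LiesOverPrime p)

/-- `j ∈ F`. -/
def grJ : ↥(modularFunctionFieldBar (M * p)) := Fermat.Agent.H23.jBar (M * p)

/-- `j_p = j(q^p) ∈ F`. -/
def grJp : ↥(modularFunctionFieldBar (M * p)) :=
  ⟨qExpand (AlgebraicClosure ℚ) p (jqModC (AlgebraicClosure ℚ)),
    qExpand_jqModC_mem_bar (M * p) (Dvd.intro_left M rfl)⟩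

theorem coe_grJ : ((grJ M p : ↥(modularFunctionFieldBar (M * p))) :
    LaurentSeries (AlgebraicClosure ℚ)) = jqModC (AlgebraicClosure ℚ) := coe_jBar (M * p)

theorem coe_grJp : ((grJp M p : ↥(modularFunctionFieldBar (M * p))) :
    LaurentSeries (AlgebraicClosure ℚ)) =
      qExpand (AlgebraicClosure ℚ) p (jqModC (AlgebraicClosure ℚ)) := rfl

/-- `X = j_p - j^p`. -/
def grX : ↥(modularFunctionFieldBar (M * p)) := grJp M p - grJ M p ^ p

/-- `Y = j - j_p^p`. -/
def grY : ↥(modularFunctionFieldBar (M * p)) := grJ M p - grJp M p ^ p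

theorem coe_grX : ((grX M p : ↥(modularFunctionFieldBar (M * p))) :
    LaurentSeries (AlgebraicClosure ℚ)) = Fermat.Agent.H42.SS.uS (AlgebraicClosure ℚ) p := by
  rw [grX, Fermat.Agent.H42.SS.uS]
  push_cast
  rw [coe_grJ, coe_grJp]

theorem coe_grY : ((grY M p : ↥(modularFunctionFieldBar (M * p))) :
    LaurentSeries (AlgebraicClosure ℚ)) = Fermat.Agent.H42.SS.uS' (AlgebraicClosure ℚ) p := by
  rw [grY, Fermat.Agent.H42.SS.uS']
  push_cast
  rw [coe_grJ, coe_grJp]

theorem grJ_mem : ((grJ M p : ↥(modularFunctionFieldBar (M * p))) :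
    LaurentSeries (AlgebraicClosure ℚ)) ∈ vGaussRing A := by
  rw [coe_grJ, ← coeffMap_jqModC A.subtype]
  exact vIota_mem_vGaussRing A _

theorem grJ_red : vGaussRed A ⟨_, grJ_mem M p A⟩ = jqModC (IsLocalRing.ResidueField ↥A) := by
  have h1 : ((grJ M p : ↥(modularFunctionFieldBar (M * p))) :
      LaurentSeries (AlgebraicClosure ℚ)) = vIota A (jqModC ↥A) := by
    rw [coe_grJ, vIota, coeffMap_jqModC]
  rw [gr_red_congr A (grJ_mem M p A) (vIota_mem_vGaussRing A _) h1, vGaussRed_vIota, vRho,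
    coeffMap_jqModC]

theorem grY_mem : ((grY M p : ↥(modularFunctionFieldBar (M * p))) :
    LaurentSeries (AlgebraicClosure ℚ)) ∈ vGaussRing A := by
  rw [coe_grY, ← Fermat.Agent.H42.SS.coeffMap_uS' p A.subtype]
  exact vIota_mem_vGaussRing A _

theorem grY_red : vGaussRed A ⟨_, grY_mem M p A⟩ =
    Fermat.Agent.H42.SS.uS' (IsLocalRing.ResidueField ↥A) p := by
  have h1 : ((grY M p : ↥(modularFunctionFieldBar (M * p))) :
      LaurentSeries (AlgebraicClosure ℚ)) = vIota A (Fermat.Agent.H42.SS.uS' ↥A p) := by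
    rw [coe_grY, vIota, Fermat.Agent.H42.SS.coeffMap_uS']
  rw [gr_red_congr A (grY_mem M p A) (vIota_mem_vGaussRing A _) h1, vGaussRed_vIota, vRho,
    Fermat.Agent.H42.SS.coeffMap_uS']

include hA in
/-- Absorption in `F`. -/
theorem gr_absorb_bar (f : ↥(modularFunctionFieldBar (M * p))) :
    ∃ n₀ : ℕ, ∀ n, n₀ ≤ n →
      ∃ h : ((f * grX M p ^ n : ↥(modularFunctionFieldBar (M * p))) :
          LaurentSeries (AlgebraicClosure ℚ)) ∈ vGaussRing A,
        vGaussRed A ⟨_, h⟩ = 0 := by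
  have hf : ∃ (c : AlgebraicClosure ℚ) (w : vGaussRing A),
      (f : LaurentSeries (AlgebraicClosure ℚ)) =
        algebraMap (AlgebraicClosure ℚ) (LaurentSeries (AlgebraicClosure ℚ)) c *
          (w : LaurentSeries (AlgebraicClosure ℚ)) := by
    by_cases hf0 : f = 0
    · refine ⟨0, 0, ?_⟩
      rw [hf0]
      simp
    · obtain ⟨c, u, -, -, hcu⟩ := gaussNorm (M * p) p A hA f hf0
      refine ⟨c, ⟨_, u.2⟩, ?_⟩
      rw [hcu, Algebra.smul_def]
      rfl
  obtain ⟨n₀, hn₀⟩ := gr_absorb p A hA _ hf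
  refine ⟨n₀, fun n hn => ?_⟩
  obtain ⟨h, hred⟩ := hn₀ n hn
  have hval : ((f * grX M p ^ n : ↥(modularFunctionFieldBar (M * p))) :
      LaurentSeries (AlgebraicClosure ℚ)) =
      (f : LaurentSeries (AlgebraicClosure ℚ)) *
        Fermat.Agent.H42.SS.uS (AlgebraicClosure ℚ) p ^ n := by
    push_cast
    rw [coe_grX]
  have hmem : ((f * grX M p ^ n : ↥(modularFunctionFieldBar (M * p))) :
      LaurentSeries (AlgebraicClosure ℚ)) ∈ vGaussRing A := by
    rw [hval]
    exact h
  exact ⟨hmem, (gr_red_congr A hmem h hval).trans hred⟩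

variable (W : ↥(modularFunctionFieldBar (M * p)) ≃ₐ[AlgebraicClosure ℚ]
    ↥(modularFunctionFieldBar (M * p)))
  (hW1 : W (grJ M p) = grJp M p) (hW2 : W (grJp M p) = grJ M p)

include hW1 hW2 in
theorem gr_W_X : W (grX M p) = grY M p := by
  rw [grX, map_sub, map_pow, hW1, hW2]
  rfl

include hW1 hW2 in
theorem gr_W_Y : W (grY M p) = grX M p := by
  rw [grY, map_sub, map_pow, hW1, hW2]
  rfl

theorem gr_adjoin_le : IntermediateField.adjoin (AlgebraicClosure ℚ)
    {jqModC (AlgebraicClosure ℚ)} ≤ modularFunctionFieldBar (M * p) := by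
  rw [IntermediateField.adjoin_le_iff]
  rintro x hx
  rw [Set.mem_singleton_iff] at hx
  rw [hx, ← coe_grJ M p]
  exact (grJ M p).2

include hW1 in
/-- `W` acts on `L(j)` as `q ↦ q^p`. -/
theorem gr_W_eq_qExpand (g : ↥(modularFunctionFieldBar (M * p)))
    (hg : (g : LaurentSeries (AlgebraicClosure ℚ)) ∈
      IntermediateField.adjoin (AlgebraicClosure ℚ) {jqModC (AlgebraicClosure ℚ)}) :
    ((W g : ↥(modularFunctionFieldBar (M * p))) : LaurentSeries (AlgebraicClosure ℚ)) =
      qExpand (AlgebraicClosure ℚ) p (g : LaurentSeries (AlgebraicClosure ℚ)) := by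
  set φ₁ : ↥(IntermediateField.adjoin (AlgebraicClosure ℚ) {jqModC (AlgebraicClosure ℚ)})
      →ₐ[AlgebraicClosure ℚ] LaurentSeries (AlgebraicClosure ℚ) :=
    ((modularFunctionFieldBar (M * p)).val.comp W.toAlgHom).comp
      (IntermediateField.inclusion (gr_adjoin_le M p)) with hφ₁
  set φ₂ : ↥(IntermediateField.adjoin (AlgebraicClosure ℚ) {jqModC (AlgebraicClosure ℚ)})
      →ₐ[AlgebraicClosure ℚ] LaurentSeries (AlgebraicClosure ℚ) :=
    (qExpandAlgHomC (AlgebraicClosure ℚ) p).comp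
      (IntermediateField.adjoin (AlgebraicClosure ℚ) {jqModC (AlgebraicClosure ℚ)}).val with hφ₂
  have hφ : φ₁ = φ₂ := by
    apply IntermediateField.adjoin_algHom_ext
    intro x hx
    rw [Set.mem_singleton_iff] at hx
    subst hx
    have h1 : IntermediateField.inclusion (gr_adjoin_le M p)
        ⟨jqModC (AlgebraicClosure ℚ), IntermediateField.subset_adjoin _ _ rfl⟩ = grJ M p :=
      Subtype.ext (coe_grJ M p).symm
    show ((W (IntermediateField.inclusion (gr_adjoin_le M p)
        ⟨jqModC (AlgebraicClosure ℚ), _⟩) : ↥(modularFunctionFieldBar (M * p))) :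
          LaurentSeries (AlgebraicClosure ℚ)) = qExpand (AlgebraicClosure ℚ) p _
    rw [h1, hW1]
    rfl
  have h2 := congrArg (fun φ : ↥(IntermediateField.adjoin (AlgebraicClosure ℚ)
      {jqModC (AlgebraicClosure ℚ)}) →ₐ[AlgebraicClosure ℚ]
        LaurentSeries (AlgebraicClosure ℚ) => φ ⟨_, hg⟩) hφ
  have h3 : IntermediateField.inclusion (gr_adjoin_le M p)
      ⟨(g : LaurentSeries (AlgebraicClosure ℚ)), hg⟩ = g := Subtype.ext rfl
  have h4 : φ₁ ⟨_, hg⟩ = ((W (IntermediateField.inclusion (gr_adjoin_le M p)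
      ⟨(g : LaurentSeries (AlgebraicClosure ℚ)), hg⟩) : ↥(modularFunctionFieldBar (M * p))) :
        LaurentSeries (AlgebraicClosure ℚ)) := rfl
  rw [h3] at h4
  rw [← h4]
  exact h2

include hA hW1 hW2 in
/-- **The two-valuation fundamental inequality**: `(p + 1) [red O : k(j̄)] ≤ ψ(M p)`. -/
theorem gr_card_le {ι : Type} [Fintype ι] (x : ι → ↥(gaussOBar (M * p) A))
    (hli : LinearIndependent
      ↥(IntermediateField.adjoin (IsLocalRing.ResidueField ↥A)
        {jqModC (IsLocalRing.ResidueField ↥A)})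
      (fun i => gaussRedBar (M * p) A (x i))) :
    (p + 1) * Fintype.card ι ≤ dedekindPsi (M * p) := by
  classical
  haveI : CharP (IsLocalRing.ResidueField ↥A) p :=
    Fermat.Agent.H89.charP_residueField_of_liesOverPrime A p hA
  -- absorption exponents
  choose n₁ hn₁ using fun i : ι =>
    gr_absorb_bar M p A hA (W (x i : ↥(modularFunctionFieldBar (M * p))))
  choose n₂ hn₂ using fun b : Fin p × ι =>
    gr_absorb_bar M p A hA
      (W.symm (grJ M p ^ (b.1 : ℕ) * (x b.2 : ↥(modularFunctionFieldBar (M * p)))))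
  set n : ℕ := (Finset.univ.sup n₁) ⊔ (Finset.univ.sup n₂) with hn
  have hn₁' : ∀ i, n₁ i ≤ n := fun i =>
    le_trans (Finset.le_sup (Finset.mem_univ i)) le_sup_left
  have hn₂' : ∀ b, n₂ b ≤ n := fun b =>
    le_trans (Finset.le_sup (Finset.mem_univ b)) le_sup_right
  -- the reductions
  set ρ : LaurentSeries (IsLocalRing.ResidueField ↥A) :=
    Fermat.Agent.H42.SS.uS' (IsLocalRing.ResidueField ↥A) p with hρ
  have hρ0 : ρ ^ n ≠ 0 :=
    pow_ne_zero _ (Fermat.Agent.H42.SS.uS'_ne_zero p (IsLocalRing.ResidueField ↥A))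
  set r : ι → LaurentSeries (IsLocalRing.ResidueField ↥A) :=
    fun i => gaussRedBar (M * p) A (x i) * ρ ^ n with hr
  have hrli : LinearIndependent
      ↥(IntermediateField.adjoin (IsLocalRing.ResidueField ↥A)
        {jqModC (IsLocalRing.ResidueField ↥A)}) r := by
    rw [Fintype.linearIndependent_iff] at hli ⊢
    intro g hg i
    apply hli g _ i
    have h1 : (∑ i, g i • gaussRedBar (M * p) A (x i)) * ρ ^ n = 0 := by
      rw [Finset.sum_mul, ← hg]
      refine Finset.sum_congr rfl fun i _ => ?_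
      rw [hr, smul_mul_assoc]
    exact (mul_eq_zero.mp h1).resolve_right hρ0
  -- the family
  set fam : ι ⊕ (Fin p × ι) → ↥(modularFunctionFieldBar (M * p)) := fun s =>
    match s with
    | Sum.inl i => (x i : ↥(modularFunctionFieldBar (M * p))) * grY M p ^ n
    | Sum.inr b => W.symm (grJ M p ^ (b.1 : ℕ) * (x b.2 : ↥(modularFunctionFieldBar (M * p)))) *
        grX M p ^ n with hfam
  have hWfam1 : ∀ i, W (fam (Sum.inl i)) =
      W (x i : ↥(modularFunctionFieldBar (M * p))) * grX M p ^ n := by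
    intro i
    show W ((x i : ↥(modularFunctionFieldBar (M * p))) * grY M p ^ n) = _
    rw [map_mul, map_pow, gr_W_Y M p W hW1 hW2]
  have hWfam2 : ∀ b : Fin p × ι, W (fam (Sum.inr b)) =
      grJ M p ^ (b.1 : ℕ) * (x b.2 : ↥(modularFunctionFieldBar (M * p))) * grY M p ^ n := by
    intro b
    show W (W.symm (grJ M p ^ (b.1 : ℕ) * (x b.2 : ↥(modularFunctionFieldBar (M * p)))) *
      grX M p ^ n) = _
    rw [map_mul, map_pow, AlgEquiv.apply_symm_apply, gr_W_X M p W hW1 hW2]
  -- memberships and reductions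
  have m1 : ∀ i, ∃ h : ((fam (Sum.inl i) : ↥(modularFunctionFieldBar (M * p))) :
      LaurentSeries (AlgebraicClosure ℚ)) ∈ vGaussRing A, vGaussRed A ⟨_, h⟩ = r i := by
    intro i
    have hval : ((fam (Sum.inl i) : ↥(modularFunctionFieldBar (M * p))) :
        LaurentSeries (AlgebraicClosure ℚ)) =
        (((⟨_, (x i).2⟩ : vGaussRing A) * ⟨_, grY_mem M p A⟩ ^ n : vGaussRing A) :
          LaurentSeries (AlgebraicClosure ℚ)) := by
      show (((x i : ↥(modularFunctionFieldBar (M * p))) * grY M p ^ n :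
        ↥(modularFunctionFieldBar (M * p))) : LaurentSeries (AlgebraicClosure ℚ)) = _
      push_cast
      rfl
    have hmem : ((fam (Sum.inl i) : ↥(modularFunctionFieldBar (M * p))) :
        LaurentSeries (AlgebraicClosure ℚ)) ∈ vGaussRing A := by
      rw [hval]
      exact Subtype.property _
    refine ⟨hmem, ?_⟩
    have h1 : (⟨_, hmem⟩ : vGaussRing A) =
        (⟨_, (x i).2⟩ : vGaussRing A) * ⟨_, grY_mem M p A⟩ ^ n := Subtype.ext hval
    rw [h1, map_mul, map_pow, grY_red]
    rfl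
  have m2 : ∀ b, ∃ h : ((fam (Sum.inr b) : ↥(modularFunctionFieldBar (M * p))) :
      LaurentSeries (AlgebraicClosure ℚ)) ∈ vGaussRing A, vGaussRed A ⟨_, h⟩ = 0 :=
    fun b => hn₂ b n (hn₂' b)
  have m3 : ∀ i, ∃ h : ((W (fam (Sum.inl i)) : ↥(modularFunctionFieldBar (M * p))) :
      LaurentSeries (AlgebraicClosure ℚ)) ∈ vGaussRing A, vGaussRed A ⟨_, h⟩ = 0 := by
    intro i
    rw [hWfam1 i]
    exact hn₁ i n (hn₁' i)
  have m4 : ∀ b : Fin p × ι, ∃ h : ((W (fam (Sum.inr b)) : ↥(modularFunctionFieldBar (M * p))) :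
      LaurentSeries (AlgebraicClosure ℚ)) ∈ vGaussRing A,
      vGaussRed A ⟨_, h⟩ = jqModC (IsLocalRing.ResidueField ↥A) ^ (b.1 : ℕ) * r b.2 := by
    intro b
    rw [hWfam2 b]
    have hval : ((grJ M p ^ (b.1 : ℕ) * (x b.2 : ↥(modularFunctionFieldBar (M * p))) *
        grY M p ^ n : ↥(modularFunctionFieldBar (M * p))) :
        LaurentSeries (AlgebraicClosure ℚ)) =
        (((⟨_, grJ_mem M p A⟩ : vGaussRing A) ^ (b.1 : ℕ) * ⟨_, (x b.2).2⟩ *
          ⟨_, grY_mem M p A⟩ ^ n : vGaussRing A) : LaurentSeries (AlgebraicClosure ℚ)) := by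
      push_cast
      rfl
    have hmem : ((grJ M p ^ (b.1 : ℕ) * (x b.2 : ↥(modularFunctionFieldBar (M * p))) *
        grY M p ^ n : ↥(modularFunctionFieldBar (M * p))) :
        LaurentSeries (AlgebraicClosure ℚ)) ∈ vGaussRing A := by
      rw [hval]
      exact Subtype.property _
    refine ⟨hmem, ?_⟩
    have h1 : (⟨_, hmem⟩ : vGaussRing A) =
        (⟨_, grJ_mem M p A⟩ : vGaussRing A) ^ (b.1 : ℕ) * ⟨_, (x b.2).2⟩ *
          ⟨_, grY_mem M p A⟩ ^ n := Subtype.ext hval
    rw [h1, map_mul, map_mul, map_pow, map_pow, grY_red, grJ_red, mul_assoc]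
    rfl
  have hmem : ∀ s, ((fam s : ↥(modularFunctionFieldBar (M * p))) :
      LaurentSeries (AlgebraicClosure ℚ)) ∈ vGaussRing A := by
    rintro (i | b)
    · exact (m1 i).1
    · exact (m2 b).1
  have hmem' : ∀ s, ((W (fam s) : ↥(modularFunctionFieldBar (M * p))) :
      LaurentSeries (AlgebraicClosure ℚ)) ∈ vGaussRing A := by
    rintro (i | b)
    · exact (m3 i).1
    · exact (m4 b).1
  set v : ι ⊕ (Fin p × ι) → vGaussRing A := fun s => ⟨_, hmem s⟩ with hv
  set v' : ι ⊕ (Fin p × ι) → vGaussRing A := fun s => ⟨_, hmem' s⟩ with hv'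
  have hGI := gr_pair_independent p (IsLocalRing.ResidueField ↥A) r hrli
    (fun s => vGaussRed A (v s)) (fun s => vGaussRed A (v' s))
    (fun i => (m1 i).2) (fun b => (m2 b).2) (fun i => (m3 i).2) (fun a i => (m4 (a, i)).2)
  -- linear independence over `L(j)`
  have hLI : LinearIndependent ↥((AlgebraicClosure ℚ)⟮Fermat.Agent.H23.jBar (M * p)⟯) fam := by
    rw [Fintype.linearIndependent_iff]
    intro g hg s
    have h1 : ∑ s, (((g s : ↥(modularFunctionFieldBar (M * p))) :
        LaurentSeries (AlgebraicClosure ℚ))) *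
          ((v s : vGaussRing A) : LaurentSeries (AlgebraicClosure ℚ)) = 0 := by
      have h3 := congrArg (fun y : ↥(modularFunctionFieldBar (M * p)) =>
        (y : LaurentSeries (AlgebraicClosure ℚ))) hg
      simp only [AddSubmonoidClass.coe_finsetSum, ZeroMemClass.coe_zero] at h3
      rw [← h3]
      rfl
    have h2 : ∑ s, qExpand (AlgebraicClosure ℚ) p
        (((g s : ↥(modularFunctionFieldBar (M * p))) : LaurentSeries (AlgebraicClosure ℚ))) *
          ((v' s : vGaussRing A) : LaurentSeries (AlgebraicClosure ℚ)) = 0 := by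
      have h3 := congrArg (fun y : ↥(modularFunctionFieldBar (M * p)) =>
        ((W y : ↥(modularFunctionFieldBar (M * p))) : LaurentSeries (AlgebraicClosure ℚ))) hg
      simp only [map_sum, map_zero, AddSubmonoidClass.coe_finsetSum,
        ZeroMemClass.coe_zero] at h3
      rw [← h3]
      refine Finset.sum_congr rfl fun s _ => ?_
      rw [← gr_W_eq_qExpand M p W hW1 _ (coe_mem_adjoin_jq (M * p) (g s))]
      have h4 : g s • fam s = (g s : ↥(modularFunctionFieldBar (M * p))) * fam s := rfl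
      rw [h4, map_mul]
      rfl
    have key := gr_two_sided A p v v' hGI
      (fun s => ((g s : ↥(modularFunctionFieldBar (M * p))) :
        LaurentSeries (AlgebraicClosure ℚ)))
      (fun s => coe_mem_adjoin_jq (M * p) (g s)) h1 h2 s
    exact Subtype.ext (Subtype.ext key)
  have hcard := card_le_dedekindPsi_of_linearIndependent (M * p) fam hLI
  rw [Fintype.card_sum, Fintype.card_prod, Fintype.card_fin] at hcard
  calc (p + 1) * Fintype.card ι = Fintype.card ι + p * Fintype.card ι := by ring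
    _ ≤ dedekindPsi (M * p) := hcard

include hA hW1 hW2 in
/-- **RANGE at `p ∣ N`**, given an Atkin-Lehner automorphism. -/
theorem gaussRange_bad_of_W (hpM : ¬ p ∣ M) (u : ↥(gaussOBar (M * p) A)) :
    gaussRedBar (M * p) A u ∈
      modularFunctionFieldFullC (IsLocalRing.ResidueField ↥A) (M * p) := by
  obtain ⟨e, heF, heli⟩ := exists_indep_fullC M p hpM A hA
  have heF' : ∀ i, e i ∈ modularFunctionFieldFullC (IsLocalRing.ResidueField ↥A) (M * p) :=
    fun i => full_degeneracyC_le (IsLocalRing.ResidueField ↥A) (Dvd.intro p rfl) (heF i)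
  have hlift : ∀ i, ∃ w : ↥(gaussOBar (M * p) A), gaussRedBar (M * p) A w = e i :=
    fun i => gaussSurj (M * p) p A hA (e i) (heF' i)
  choose w hw using hlift
  by_contra hu
  have hnot : gaussRedBar (M * p) A u ∉ Submodule.span
      ↥(IntermediateField.adjoin (IsLocalRing.ResidueField ↥A)
        {jqModC (IsLocalRing.ResidueField ↥A)}) (Set.range e) :=
    fun h => hu (span_le_fullC _ (M * p) e heF' h)
  have hli := heli.option hnot
  have hfun : (fun o : Option (Fin (dedekindPsi M)) =>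
      gaussRedBar (M * p) A (Option.casesOn' o u w)) =
      (fun o => Option.casesOn' o (gaussRedBar (M * p) A u) e) := by
    funext o
    cases o with
    | none => rfl
    | some i => exact hw i
  rw [← hfun] at hli
  have h1 := gr_card_le M p A hA W hW1 hW2 (fun o => Option.casesOn' o u w) hli
  rw [Fintype.card_option, Fintype.card_fin,
    Fermat.Agent.H26.dedekindPsi_mul_prime_of_not_dvd M p (Nat.pos_of_ne_zero (NeZero.ne M))
      hp.out hpM] at h1
  have h2 : dedekindPsi M * (p + 1) < (p + 1) * (dedekindPsi M + 1) := by nlinarith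
  omega

end Concrete

end Fermat.Agent.H42.ORD
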