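/-
P-ORD, block B1-GAUSS / RANGE (helper42): final statements.

`L = ℚ̄`, `A` a valuation subring over the prime `p`, `k` its residue field, `N = M p`, `p ∤ M`.

* `gaussRange_bad` : **RANGE at `p ∣ N`** : the reduction of every element of the Gauss ring
  `gaussOBar (M p) A` lies in `modularFunctionFieldFullC k (M p)` (the Atkin-Lehner automorphism
  is eliminated);
* `gaussRange_of_not_sq_dvd` : the same for every level `N` with `p² ∤ N`;
* `gaussRange_fullC_eq` : `modularFunctionFieldFullC k (M p) = modularFunctionFieldFullC k M`;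
* `gaussRange_card_le` : the two-valuation fundamental inequality without `W`;
* `gauss_ne_comap` : **`ne`** : `V_∞ ≠ W⁻¹ V_∞` for every Atkin-Lehner automorphism `W`
  (`W j = j_p`, `W j_p = j`), with the explicit separator `X⁻¹`, `X = j_p - j^p`.
-/
import Mathlib
import Fermat.Agent.H84.SS2.AlphaIndep
import Fermat.Agent.H42.ORD.GaussRange

set_option autoImplicit false
set_option synthInstance.maxHeartbeats 400000
set_option linter.unusedSectionVars false
set_option linter.style.haveILetI false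

noncomputable section

namespace Fermat.Agent.H42.ORD

open ModularCurve Fermat.Agent.H66 IntermediateField

section Final

variable (M p : ℕ) [NeZero M] [hp : Fact p.Prime] [NeZero p] [NeZero (M * p)]
  (A : ValuationSubring (AlgebraicClosure ℚ)) (hA : A.LiesOverPrime p)

theorem gr_jBarD_one (h : 1 * 1 ∣ M * p) :
    Fermat.Agent.H23.jBarD (M * p) (1 * 1) h = grJ M p := by
  apply Subtype.ext
  show coeffEmb (AlgebraicClosure ℚ) (qExpand ℚ (1 * 1) jq) = coeffEmb (AlgebraicClosure ℚ) jq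
  rw [qExpand_congr (mul_one 1) jq, qExpand_one_apply]

theorem gr_jBarD_p [NeZero (1 * p)] (h : 1 * p ∣ M * p) :
    Fermat.Agent.H23.jBarD (M * p) (1 * p) h = grJp M p := by
  apply Subtype.ext
  show coeffEmb (AlgebraicClosure ℚ) (qExpand ℚ (1 * p) jq) =
    qExpand (AlgebraicClosure ℚ) p (jqModC (AlgebraicClosure ℚ))
  rw [qExpand_congr (one_mul p) jq, coeffEmb, coeffMap_qExpand, ← jqModC_rat, coeffMap_jqModC]

/-- The Atkin-Lehner automorphism at `p`, in the normalisation of `GaussRange`. -/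
theorem gr_exists_W (hpM : ¬ p ∣ M) :
    ∃ W : ↥(modularFunctionFieldBar (M * p)) ≃ₐ[AlgebraicClosure ℚ]
        ↥(modularFunctionFieldBar (M * p)),
      W (grJ M p) = grJp M p ∧ W (grJp M p) = grJ M p := by
  have hcop : Nat.Coprime M p := by
    rw [Nat.coprime_comm, hp.out.coprime_iff_not_dvd]
    exact hpM
  obtain ⟨W, hW⟩ := Fermat.Agent.H84.SS2.nlv_exists_atkinLehner (M * p) M p rfl hcop
  haveI : NeZero (1 * 1) := ⟨by norm_num⟩
  haveI : NeZero (1 * p) := ⟨by rw [one_mul]; exact hp.out.ne_zero⟩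
  have h11 : 1 * 1 ∣ M * p := by rw [mul_one]; exact one_dvd _
  have h1p : 1 * p ∣ M * p := by rw [one_mul]; exact Dvd.intro_left M rfl
  refine ⟨W, ?_, ?_⟩
  · have h := hW 1 1 p inferInstance inferInstance (one_dvd M) (one_mul p) h11 h1p
    rw [gr_jBarD_one M p h11, gr_jBarD_p M p h1p] at h
    exact h
  · have h := hW 1 p 1 inferInstance inferInstance (one_dvd M) (mul_one p) h1p h11
    rw [gr_jBarD_one M p h11, gr_jBarD_p M p h1p] at h
    exact h

include hA in
/-- **RANGE at `p ∣ N`** (`N = M p`, `p ∤ M`): `Red(O) ⊆ F_k`. -/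
theorem gaussRange_bad (hpM : ¬ p ∣ M) (u : ↥(gaussOBar (M * p) A)) :
    gaussRedBar (M * p) A u ∈
      modularFunctionFieldFullC (IsLocalRing.ResidueField ↥A) (M * p) := by
  obtain ⟨W, hW1, hW2⟩ := gr_exists_W M p hpM
  exact gaussRange_bad_of_W M p A hA W hW1 hW2 hpM u

include hA in
/-- **The two-valuation fundamental inequality** `(p + 1) [Red O : k(j̄)] ≤ ψ(M p)`. -/
theorem gaussRange_card_le (hpM : ¬ p ∣ M) {ι : Type} [Fintype ι]
    (x : ι → ↥(gaussOBar (M * p) A))
    (hli : LinearIndependent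
      ↥(IntermediateField.adjoin (IsLocalRing.ResidueField ↥A)
        {jqModC (IsLocalRing.ResidueField ↥A)})
      (fun i => gaussRedBar (M * p) A (x i))) :
    (p + 1) * Fintype.card ι ≤ dedekindPsi (M * p) := by
  obtain ⟨W, hW1, hW2⟩ := gr_exists_W M p hpM
  exact gr_card_le M p A hA W hW1 hW2 x hli

include hA in
/-- **[B1-1b]** `F_k(M p) = F_k(M)` for the residue field `k` of `A`. -/
theorem gaussRange_fullC_eq :
    modularFunctionFieldFullC (IsLocalRing.ResidueField ↥A) (M * p) =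
      modularFunctionFieldFullC (IsLocalRing.ResidueField ↥A) M := by
  haveI : CharP (IsLocalRing.ResidueField ↥A) p :=
    Fermat.Agent.H89.charP_residueField_of_liesOverPrime A p hA
  exact gr_fullC_mul_prime_eq p (IsLocalRing.ResidueField ↥A) M

/-! ### `ne` -/

include hA in
theorem grX_mem : grX M p ∈ gaussOBar (M * p) A := by
  rw [mem_gaussOBar_iff, coe_grX, ← Fermat.Agent.H42.SS.coeffMap_uS p A.subtype]
  exact vIota_mem_vGaussRing A _

include hA in
theorem grX_red : gaussRedBar (M * p) A ⟨grX M p, grX_mem M p A hA⟩ = 0 := by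
  haveI : CharP (IsLocalRing.ResidueField ↥A) p :=
    Fermat.Agent.H89.charP_residueField_of_liesOverPrime A p hA
  have h1 : ((grX M p : ↥(modularFunctionFieldBar (M * p))) :
      LaurentSeries (AlgebraicClosure ℚ)) = vIota A (Fermat.Agent.H42.SS.uS ↥A p) := by
    rw [coe_grX, vIota, Fermat.Agent.H42.SS.coeffMap_uS]
  rw [gaussRedBar_of_eq_vIota (M * p) A h1, vRho, Fermat.Agent.H42.SS.coeffMap_uS,
    Fermat.Agent.H42.SS.uS_eq_zero]

theorem grY_mem_bar : grY M p ∈ gaussOBar (M * p) A := grY_mem M p A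

include hA in
theorem grY_red_ne : gaussRedBar (M * p) A ⟨grY M p, grY_mem_bar M p A⟩ ≠ 0 := by
  haveI : CharP (IsLocalRing.ResidueField ↥A) p :=
    Fermat.Agent.H89.charP_residueField_of_liesOverPrime A p hA
  have h : gaussRedBar (M * p) A ⟨grY M p, grY_mem_bar M p A⟩ =
      Fermat.Agent.H42.SS.uS' (IsLocalRing.ResidueField ↥A) p := grY_red M p A
  rw [h]
  exact Fermat.Agent.H42.SS.uS'_ne_zero p _

include hA in
/-- **`ne`** : the Gauss rings at the two cusps are different; `X⁻¹` (`X = j_p - j^p`) is a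
unit of `W⁻¹ V_∞` which does not belong to `V_∞`. -/
theorem gauss_inv_X_separates
    (W : ↥(modularFunctionFieldBar (M * p)) ≃ₐ[AlgebraicClosure ℚ]
      ↥(modularFunctionFieldBar (M * p)))
    (hW1 : W (grJ M p) = grJp M p) (hW2 : W (grJp M p) = grJ M p) :
    W (grX M p)⁻¹ ∈ gaussOBar (M * p) A ∧ (grX M p)⁻¹ ∉ gaussOBar (M * p) A := by
  have hY := grY_red_ne M p A hA
  have hWX : W (grX M p) = grY M p := gr_W_X M p W hW1 hW2
  have hY0 : grY M p ≠ 0 := by
    intro h
    apply hY
    have : (⟨grY M p, grY_mem_bar M p A⟩ : ↥(gaussOBar (M * p) A)) = 0 := Subtype.ext h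
    rw [this, map_zero]
  have hX0 : grX M p ≠ 0 := by
    intro h
    rw [h, map_zero] at hWX
    exact hY0 hWX.symm
  constructor
  · rw [map_inv₀, hWX]
    exact inv_mem_gaussOBar (M * p) A (u := ⟨grY M p, grY_mem_bar M p A⟩) hY
  · intro hmem
    have h1 : (⟨grX M p, grX_mem M p A hA⟩ : ↥(gaussOBar (M * p) A)) * ⟨_, hmem⟩ = 1 :=
      Subtype.ext (mul_inv_cancel₀ hX0)
    have h2 := congrArg (gaussRedBar (M * p) A) h1
    rw [map_mul, grX_red M p A hA, zero_mul, map_one] at h2
    exact zero_ne_one h2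

include hA in
/-- **`ne`** : `V_∞ ≠ W⁻¹ V_∞`. -/
theorem gauss_ne_comap
    (W : ↥(modularFunctionFieldBar (M * p)) ≃ₐ[AlgebraicClosure ℚ]
      ↥(modularFunctionFieldBar (M * p)))
    (hW1 : W (grJ M p) = grJp M p) (hW2 : W (grJp M p) = grJ M p) :
    gaussOBar (M * p) A ≠ (gaussOBar (M * p) A).comap (W : ↥(modularFunctionFieldBar (M * p)) →+*
      ↥(modularFunctionFieldBar (M * p))) := by
  obtain ⟨h1, h2⟩ := gauss_inv_X_separates M p A hA W hW1 hW2
  intro h
  apply h2
  rw [h]
  exact h1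

end Final

/-- **RANGE** at every level `N` with `p² ∤ N` (good reduction: `H66.gaussRange_uncond`;
`p ∥ N`: `gaussRange_bad`). -/
theorem gaussRange_of_not_sq_dvd (N : ℕ) [NeZero N] (p : ℕ) [hp : Fact p.Prime]
    (hp2 : ¬ p * p ∣ N) (A : ValuationSubring (AlgebraicClosure ℚ)) (hA : A.LiesOverPrime p)
    (u : ↥(gaussOBar N A)) :
    gaussRedBar N A u ∈ modularFunctionFieldFullC (IsLocalRing.ResidueField ↥A) N := by
  by_cases hpN : p ∣ N
  · obtain ⟨M, hM⟩ : ∃ M, N = M * p := ⟨N / p, (Nat.div_mul_cancel hpN).symm⟩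
    subst hM
    haveI : NeZero p := ⟨hp.out.ne_zero⟩
    haveI : NeZero M := ⟨fun h => (NeZero.ne (M * p)) (by rw [h, zero_mul])⟩
    have hpM : ¬ p ∣ M := fun h => hp2 (mul_dvd_mul_right h p)
    exact gaussRange_bad M p A hA hpM u
  · exact gaussRange_uncond N p hpN A hA u

end Fermat.Agent.H42.ORD
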